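import Mathlib
import Fermat.Prelude.Def_FLTPrelim_Ramification

/-!
# Valuation subrings of `ℚ̄`
-/

set_option autoImplicit false
set_option linter.style.haveILetI false
set_option linter.unusedSectionVars false

noncomputable section

namespace Fermat.Agent.RedMod

open Polynomial

section Res

variable {K : Type*} [Field K] (A : ValuationSubring K)

/-- the residue field of a valuation ring of an algebraically closed field -/
instance isAlgClosed_residueField [IsAlgClosed K] : IsAlgClosed (IsLocalRing.ResidueField A) := by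
  apply IsAlgClosed.of_exists_root
  intro p hp hirr
  have hlift : p ∈ Polynomial.lifts (IsLocalRing.residue A) := by
    rw [Polynomial.lifts_iff_coeff_lifts]
    intro n
    exact IsLocalRing.residue_surjective (p.coeff n)
  obtain ⟨P, hP, hdeg, hmon⟩ := Polynomial.lifts_and_natDegree_eq_and_monic hlift hp
  have hpdeg : 0 < p.natDegree := hirr.natDegree_pos
  obtain ⟨x, hx⟩ := IsAlgClosed.exists_root (P.map A.subtype) (by
    rw [hmon.degree_map]
    intro h0
    rw [Polynomial.degree_eq_natDegree hmon.ne_zero, hdeg] at h0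
    have : p.natDegree = 0 := by exact_mod_cast h0
    omega)
  rw [IsRoot.def, eval_map] at hx
  have hint : IsIntegral A x := ⟨P, hmon, hx⟩
  obtain ⟨y, hy⟩ := (IsIntegrallyClosed.isIntegral_iff).1 hint
  refine ⟨IsLocalRing.residue A y, ?_⟩
  have h1 : eval₂ (RingHom.id A) y P = 0 := by
    apply A.subtype_injective
    rw [Polynomial.hom_eval₂, map_zero, ← hx, ← hy]
    rfl
  have h2 := Polynomial.hom_eval₂ P (RingHom.id A) (IsLocalRing.residue A) y
  rw [h1, map_zero] at h2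
  rw [← hP, eval_map]
  exact h2.symm

end Res

section Prime

variable {K : Type*} [Field K] {A : ValuationSubring K} {ℓ : ℕ}

theorem mem_A_natCast (n : ℕ) : (n : K) ∈ A := natCast_mem A n

theorem residue_ell (hA : A.LiesOverPrime ℓ) : (ℓ : IsLocalRing.ResidueField A) = 0 := by
  have h1 : (ℓ : A) ∈ IsLocalRing.maximalIdeal A := by
    have h2 := ValuationSubring.mem_nonunits_iff_exists_mem_maximalIdeal.1 hA
    obtain ⟨h3, h4⟩ := h2
    exact h4
  have h2 := (IsLocalRing.residue_eq_zero_iff (R := A) (ℓ : A)).2 h1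
  rw [← map_natCast (IsLocalRing.residue A)]
  exact h2

theorem natCast_residue_ne_zero [Fact ℓ.Prime] (hA : A.LiesOverPrime ℓ) {n : ℕ} (hn : ¬ ℓ ∣ n) :
    (n : IsLocalRing.ResidueField A) ≠ 0 := by
  intro h
  have hcop : Nat.Coprime ℓ n := (Nat.Prime.coprime_iff_not_dvd Fact.out).2 hn
  have h1 : IsCoprime (ℓ : ℤ) (n : ℤ) := Nat.isCoprime_iff_coprime.2 hcop
  obtain ⟨a, b, hab⟩ := h1
  have h2 := congrArg (fun x : ℤ => (x : IsLocalRing.ResidueField A)) hab
  push_cast at h2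
  rw [residue_ell hA, h, mul_zero, mul_zero, add_zero] at h2
  exact zero_ne_one h2

theorem charP_residue [Fact ℓ.Prime] (hA : A.LiesOverPrime ℓ) :
    CharP (IsLocalRing.ResidueField A) ℓ := by
  constructor
  intro n
  constructor
  · intro h
    by_contra hn
    exact natCast_residue_ne_zero hA hn h
  · rintro ⟨c, rfl⟩
    push_cast
    rw [residue_ell hA, zero_mul]

theorem exists_nonunit [Fact ℓ.Prime] [CharZero K] (hA : A.LiesOverPrime ℓ) :
    ∃ t : A, t ≠ 0 ∧ ¬ IsUnit t := by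
  refine ⟨(ℓ : A), ?_, ?_⟩
  · intro h
    have h2 := congrArg A.subtype h
    rw [map_natCast, map_zero] at h2
    exact (Nat.cast_ne_zero (R := K)).2 (Fact.out : ℓ.Prime).ne_zero h2
  · intro h
    have h2 := h.map (IsLocalRing.residue A)
    rw [map_natCast, residue_ell hA] at h2
    exact not_isUnit_zero h2

end Prime

section Rank

variable {A : ValuationSubring (AlgebraicClosure ℚ)} {ℓ : ℕ} [Fact ℓ.Prime]

theorem isAlgebraic_int (x : AlgebraicClosure ℚ) : IsAlgebraic ℤ x := by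
  have h1 : IsAlgebraic ℚ x := (AlgebraicClosure.isAlgebraic ℚ).isAlgebraic x
  exact (IsFractionRing.isAlgebraic_iff ℤ ℚ _).2 h1

theorem isAlgebraic_int' {A : ValuationSubring (AlgebraicClosure ℚ)} (x : A) : IsAlgebraic ℤ x := by
  obtain ⟨p, hp, hpx⟩ := isAlgebraic_int (x : AlgebraicClosure ℚ)
  refine ⟨p, hp, ?_⟩
  apply A.subtype_injective
  rw [map_zero, ← hpx]
  have := Polynomial.aeval_algHom_apply (A.subtype.toIntAlgHom) x p
  exact this.symm

theorem exists_int_poly (x : A) : ∃ p : ℤ[X], p.IsPrimitive ∧ aeval x p = 0 := by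
  obtain ⟨p, hp, hpx⟩ := isAlgebraic_int' x
  exact ⟨p.primPart, p.isPrimitive_primPart, Polynomial.aeval_primPart_eq_zero hp hpx⟩

/-- elements of the maximal ideal are topologically nilpotent -/
theorem dvd_pow_of_mem (hA : A.LiesOverPrime ℓ) (a : A)
    (ha : a ∈ IsLocalRing.maximalIdeal A) : ∃ r : ℕ, (ℓ : A) ∣ a ^ r := by
  classical
  obtain ⟨p, hprim, hpA⟩ := exists_int_poly a
  have hex : ∃ n, ¬ (ℓ : ℤ) ∣ p.coeff n := by
    by_contra hcon
    push Not at hcon
    have h1 := hprim (ℓ : ℤ) ((C_dvd_iff_dvd_coeff _ _).2 hcon)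
    have h3 := (Nat.prime_iff_prime_int.1 (Fact.out : ℓ.Prime)).not_isUnit
    exact h3 h1
  set r := Nat.find hex with hr
  have hr1 : ¬ (ℓ : ℤ) ∣ p.coeff r := Nat.find_spec hex
  have hr2 : ∀ i < r, (ℓ : ℤ) ∣ p.coeff i := by
    intro i hi
    have := Nat.find_min hex hi
    rwa [not_not] at this
  refine ⟨r, ?_⟩
  -- split the sum
  rw [aeval_eq_sum_range' (n := p.natDegree + 1 + (r + 1)) (by omega)] at hpA
  have hsplit := Finset.sum_range_add_sum_Ico (fun i => p.coeff i • a ^ i)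
    (show r ≤ p.natDegree + 1 + (r + 1) by omega)
  rw [hpA, Finset.sum_eq_sum_Ico_succ_bot (show r < p.natDegree + 1 + (r + 1) by omega)] at hsplit
  -- the tail is divisible by `a ^ (r + 1)`
  have htail : ∃ b : A, ∑ i ∈ Finset.Ico (r + 1) (p.natDegree + 1 + (r + 1)), p.coeff i • a ^ i =
      a ^ r * (a * b) := by
    refine ⟨∑ i ∈ Finset.Ico (r + 1) (p.natDegree + 1 + (r + 1)), p.coeff i • a ^ (i - (r + 1)), ?_⟩
    rw [Finset.mul_sum, Finset.mul_sum]
    refine Finset.sum_congr rfl fun i hi => ?_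
    rw [Finset.mem_Ico] at hi
    rw [mul_smul_comm, mul_smul_comm, ← mul_assoc, ← pow_succ, ← pow_add]
    congr 2
    omega
  obtain ⟨b, hb⟩ := htail
  have hhead : (ℓ : A) ∣ ∑ i ∈ Finset.range r, p.coeff i • a ^ i := by
    refine Finset.dvd_sum fun i hi => ?_
    rw [Finset.mem_range] at hi
    obtain ⟨c, hc⟩ := hr2 i hi
    refine ⟨(c : A) * a ^ i, ?_⟩
    rw [hc, zsmul_eq_mul]
    push_cast
    ring
  -- `a_r + a b` is a unit
  have hu : IsUnit ((p.coeff r : A) + a * b) := by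
    rw [← IsLocalRing.residue_ne_zero_iff_isUnit, map_add, map_mul,
      (IsLocalRing.residue_eq_zero_iff a).2 ha, zero_mul, add_zero, map_intCast]
    intro h0
    haveI := charP_residue hA
    exact hr1 ((CharP.intCast_eq_zero_iff (IsLocalRing.ResidueField A) ℓ _).1 h0)
  rw [hb, zsmul_eq_mul] at hsplit
  have h4 : (ℓ : A) ∣ a ^ r * ((p.coeff r : A) + a * b) := by
    have : a ^ r * ((p.coeff r : A) + a * b) = -∑ i ∈ Finset.range r, p.coeff i • a ^ i := by
      linear_combination hsplit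
    rw [this]
    exact (dvd_neg).2 hhead
  exact (hu.dvd_mul_right).1 h4

/-- nonzero elements divide a power of `ℓ` -/
theorem dvd_pow_ell (hA : A.LiesOverPrime ℓ) (c : A) (hc : c ≠ 0) : ∃ s : ℕ, c ∣ (ℓ : A) ^ s := by
  obtain ⟨z, hz0, d, hd⟩ := (isAlgebraic_int' c).exists_nonzero_dvd (mem_nonZeroDivisors_of_ne_zero hc)
  have hd' : c ∣ (z : A) := ⟨d, by rw [← hd]; rfl⟩
  have hℓ : FiniteMultiplicity (ℓ : ℤ) z := by
    rw [Int.finiteMultiplicity_iff]
    refine ⟨?_, hz0⟩
    rw [Int.natAbs_natCast]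
    exact (Fact.out : ℓ.Prime).one_lt.ne'
  obtain ⟨e, w, hw, hw'⟩ : ∃ (e : ℕ) (w : ℤ), z = (ℓ : ℤ) ^ e * w ∧ ¬ (ℓ : ℤ) ∣ w :=
    ⟨_, hℓ.exists_eq_pow_mul_and_not_dvd⟩
  have hu : IsUnit (w : A) := by
    rw [← IsLocalRing.residue_ne_zero_iff_isUnit, map_intCast]
    intro h0
    haveI := charP_residue hA
    exact hw' ((CharP.intCast_eq_zero_iff (IsLocalRing.ResidueField A) ℓ _).1 h0)
  rw [hw] at hd'
  push_cast at hd'
  exact ⟨e, (hu.dvd_mul_right).1 hd'⟩

theorem rank_one (hA : A.LiesOverPrime ℓ) (a c : A) (ha : IsLocalRing.residue A a = 0)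
    (hc : c ≠ 0) : ∃ n : ℕ, c ∣ a ^ n := by
  obtain ⟨r, hr⟩ := dvd_pow_of_mem hA a ((IsLocalRing.residue_eq_zero_iff a).1 ha)
  obtain ⟨s, hs⟩ := dvd_pow_ell hA c hc
  refine ⟨r * s, hs.trans ?_⟩
  rw [pow_mul]
  exact pow_dvd_pow_of_dvd hr s

end Rank

end Fermat.Agent.RedMod
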