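import Fermat.Agent.RedMod.Genus
import Fermat.Agent.Red.Descent
import Fermat.Agent.RR.Tower

/-!
# Rigidity for modular function fields
-/

set_option autoImplicit false
set_option linter.style.haveILetI false
set_option linter.unusedSectionVars false

noncomputable section

namespace Fermat.Agent.RedMod

open ModularCurve Polynomial IntermediateField Fermat.Agent.ModPoly Fermat.Agent.Red AlgebraicCurve
open Fermat.Agent.RR Fermat.Agent.Cusp

section

variable {A K k : Type*} [CommRing A] [IsDomain A] [ValuationRing A]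
  [Field K] [IsAlgClosed K] [Algebra A K] [IsFractionRing A K] [Field k] [IsAlgClosed k]
  [Algebra A k] {N : ℕ} [NeZero N]

/-- Rigidity at level divisible by `4` or `9`. -/
theorem rigidity_level [CharZero K] [Algebra ℚ K] (ι : K →+* ℂ)
    (hk : Function.Surjective (algebraMap A k)) (hN : (N : k) ≠ 0)
    (h : 4 ∣ N ∨ 9 ∣ N) (hA : ∃ t : A, t ≠ 0 ∧ ¬ IsUnit t)
    (hrank : ∀ a c : A, algebraMap A k a = 0 → c ≠ 0 → ∃ n : ℕ, c ∣ a ^ n)
    {m : ℕ} (hm : (m : k) ≠ 0) {f : FF K N} (hf : (f : LaurentSeries K) ∈ WL A K k)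
    {γ : FF k N} (hγ : γ ≠ 0) (hfγ : πL A K k ⟨f, hf⟩ = (γ : LaurentSeries k) ^ m)
    (hD : ∀ v : Place K (FF K N), (m : ℤ) ∣ v.ord f) : ∃ x : FF K N, x ^ m = f := by
  haveI := funField_FF (k := k) (M := N) hN
  haveI := funField_FF (k := K) (M := N) (natCast_K (A := A) hN)
  letI : Algebra A (FF K N) := ((algebraMap K (FF K N)).comp (algebraMap A K)).toAlgebra
  haveI : IsScalarTower A K (FF K N) := IsScalarTower.of_algebraMap_eq fun a => rfl
  letI : Algebra A (FF k N) := ((algebraMap k (FF k N)).comp (algebraMap A k)).toAlgebra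
  haveI : IsScalarTower A k (FF k N) := IsScalarTower.of_algebraMap_eq fun a => rfl
  have H := fibreHyp (K := K) hk hN
  rw [rrGenus_eq (A := A) (K := K) ι hk hN h] at H
  have hm0 : m ≠ 0 := by rintro rfl; simp at hm
  let D : Divisor K (FF K N) := Finsupp.mapRange (fun n : ℤ => n / m) (by simp) (divisor K f)
  have hDv : ∀ v, (m : ℤ) * D v = v.ord f := by
    intro v
    have h1 : D v = v.ord f / m := by
      rw [Finsupp.mapRange_apply, divisor_apply]
    rw [h1]
    exact Int.mul_ediv_cancel' (hD v)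
  have hD0 : Divisor.degree D = 0 := by
    have h1 : m • D = divisor K f := by
      ext v
      rw [Finsupp.smul_apply, nsmul_eq_mul, hDv, divisor_apply]
    have h2 := degree_divisor (K := K) f
    rw [← h1, map_nsmul, nsmul_eq_mul] at h2
    have h3 : (m : ℤ) ≠ 0 := by exact_mod_cast hm0
    exact (mul_eq_zero.1 h2).resolve_left h3
  refine H.rigidity hA hrank hm (f := f) hf (γ := γ) hγ ?_ D hDv hD0
  apply Subtype.ext
  exact hfγ

theorem psi_sq_mul {p : ℕ} (hp : p.Prime) (N : ℕ) [NeZero N] :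
    dedekindPsi (N * p * p) < 2 * (p * p) * dedekindPsi N := by
  haveI : NeZero p := ⟨hp.ne_zero⟩
  haveI : NeZero (N * p) := ⟨mul_ne_zero (NeZero.ne N) hp.ne_zero⟩
  have hpos := psi_pos N
  have h2 := hp.two_le
  rw [Cosets.dedekindPsi_mul_of_dvd hp (dvd_mul_left p N)]
  by_cases h : p ∣ N
  · rw [Cosets.dedekindPsi_mul_of_dvd hp h]
    nlinarith [Nat.mul_pos (Nat.mul_pos hp.pos hp.pos) hpos]
  · rw [Cosets.dedekindPsi_mul_of_not_dvd hp h]
    have h3 : p * ((p + 1) * dedekindPsi N) = (p * (p + 1)) * dedekindPsi N := by ring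
    rw [h3]
    apply Nat.mul_lt_mul_of_pos_right _ hpos
    nlinarith

omit [IsAlgClosed K] in
theorem SbA_eq_qExpand (t : ℕ+) (e : ℕ) [NeZero e] (h : (t : ℕ) = e) (F : LaurentSeries K) :
    SbA 1 t F = qExpand K e F := by
  rw [SbA_apply, Sb_one_eq e t h]

/-- descent of `m`-th roots from level `M = N p ^ 2` to level `N` -/
theorem descent_level [CharZero K] {p : ℕ} (hp : p.Prime) {M : ℕ} [NeZero M] (hM : M = N * p * p)
    {m : ℕ} (hm : m ≠ 0) {f : FF K N} (hNM : N ∣ M) {x : FF K M} (hx : x ^ m = incl K hNM f)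
    (hD : ∀ v : Place K (FF K N), (m : ℤ) ∣ v.ord f) : ∃ y : FF K N, y ^ m = f := by
  have hMK : (M : K) ≠ 0 := by exact_mod_cast NeZero.ne M
  have hNK : (N : K) ≠ 0 := by exact_mod_cast NeZero.ne N
  letI := inclAlg (k := K) hNM
  haveI := finiteDimensional_incl (k := K) hNM hMK
  haveI : NeZero (p * p) := ⟨mul_ne_zero hp.ne_zero hp.ne_zero⟩
  have he : ((p * p : ℕ) : K) ≠ 0 := by exact_mod_cast NeZero.ne (p * p)
  have hdeg : Module.finrank (FF K N) (FF K M) < 2 * (p * p) := by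
    have h1 := finrank_incl (k := K) hNM hMK
    have h2 := psi_sq_mul hp N
    rw [← hM, ← h1, mul_comm] at h2
    exact lt_of_mul_lt_mul_right h2 (Nat.zero_le _)
  obtain ⟨t, ht⟩ : ∃ t : ℕ+, (t : ℕ) = p * p := ⟨⟨p * p, NeZero.pos _⟩, rfl⟩
  have htN : (t : ℕ) * N = M := by rw [ht, hM]; ring
  have hF : ∀ y : FF K N, qExpand K (p * p) (frickeL hNK y) =
      (frickeL hMK).toRingHom (algebraMap (FF K N) (FF K M) y) := by
    intro y
    rw [← SbA_eq_qExpand t (p * p) ht]
    exact (frickeL_incl hNM hMK t htN y).symm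
  obtain ⟨y, hy⟩ := Red.descent (K := K) (F := FF K N) (F' := FF K M) (frickeL hMK).toRingHom
    (e := p * p) he hdeg (fun y => ⟨_, hF y⟩) (by
      refine ⟨fricke hMK (jF' K M)⁻¹, ?_⟩
      change (frickeL hMK (fricke hMK (jF' K M)⁻¹)).order = 1
      rw [← coe_fricke, fricke_fricke, ← cuspInf_ord, Place.ord_inv, cuspInf_ord, order_jF]
      norm_num) hm (x := x) (f := f) hx (by
      intro g hg
      rw [← hF f] at hg
      have h1 := qExpand_injective (p * p) hg
      rw [h1, ← coe_fricke, ← cusp0_ord]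
      exact hD _)
  refine ⟨y, ?_⟩
  have hy' : incl K hNM y = x := hy
  rw [← hy', ← map_pow] at hx
  exact incl_injective hNM hx

/-- `m` divides the orders of the image at a higher level -/
theorem dvd_ord_incl {M : ℕ} [NeZero M] (hM : (M : K) ≠ 0) (hNM : N ∣ M) (hN : (N : K) ≠ 0)
    {m : ℕ} {f : FF K N}
    (hD : ∀ v : Place K (FF K N), (m : ℤ) ∣ v.ord f) (u : Place K (FF K M)) :
    (m : ℤ) ∣ u.ord (incl K hNM f) := by
  haveI := funField_FF (k := K) (M := N) hN
  rcases eq_or_ne f 0 with rfl | hf0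
  · have : incl K hNM 0 = 0 := (incl K hNM).toRingHom.map_zero
    rw [this, u.ord_zero]
    exact dvd_zero _
  by_cases h : u.ord (incl K hNM f) = 0
  · rw [h]; exact dvd_zero _
  · obtain ⟨v, e, -, hv⟩ := exists_restrict (incl K hNM) u h
    rw [hv f hf0]
    exact (hD v).mul_left e

/-- **Rigidity for the modular function field.** -/
theorem rigidity_modular' [CharZero K] [Algebra ℚ K] (ι : K →+* ℂ)
    (hk : Function.Surjective (algebraMap A k)) (hN : (N : k) ≠ 0)
    (hA : ∃ t : A, t ≠ 0 ∧ ¬ IsUnit t)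
    (hrank : ∀ a c : A, algebraMap A k a = 0 → c ≠ 0 → ∃ n : ℕ, c ∣ a ^ n)
    {m : ℕ} (hm : (m : k) ≠ 0) {f : FF K N} (hf : (f : LaurentSeries K) ∈ WL A K k)
    {γ : FF k N} (hγ : γ ≠ 0) (hfγ : πL A K k ⟨f, hf⟩ = (γ : LaurentSeries k) ^ m)
    (hD : ∀ v : Place K (FF K N), (m : ℤ) ∣ v.ord f) : ∃ x : FF K N, x ^ m = f := by
  -- choose a prime `p ∈ {2, 3}` invertible in `k`
  obtain ⟨p, hp, hpk, hp23⟩ : ∃ p : ℕ, p.Prime ∧ (p : k) ≠ 0 ∧ (p = 2 ∨ p = 3) := by
    by_cases h2 : ((2 : ℕ) : k) = 0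
    · refine ⟨3, Nat.prime_three, ?_, Or.inr rfl⟩
      intro h3
      apply one_ne_zero (α := k)
      have : (1 : k) = ((3 : ℕ) : k) - ((2 : ℕ) : k) := by push_cast; ring
      rw [this, h2, h3, sub_zero]
    · exact ⟨2, Nat.prime_two, h2, Or.inl rfl⟩
  obtain ⟨M, hM⟩ : ∃ M, M = N * p * p := ⟨_, rfl⟩
  haveI : NeZero M := ⟨by rw [hM]; exact mul_ne_zero (mul_ne_zero (NeZero.ne N) hp.ne_zero) hp.ne_zero⟩
  have hMk : (M : k) ≠ 0 := by
    rw [hM]; push_cast
    exact mul_ne_zero (mul_ne_zero hN hpk) hpk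
  have hNM : N ∣ M := ⟨p * p, by rw [hM]; ring⟩
  have h49 : 4 ∣ M ∨ 9 ∣ M := by
    rcases hp23 with rfl | rfl
    · exact Or.inl ⟨N, by rw [hM]; ring⟩
    · exact Or.inr ⟨N, by rw [hM]; ring⟩
  have hm0 : m ≠ 0 := by rintro rfl; simp at hm
  have hMK := natCast_K (A := A) (K := K) hMk
  have hNK := natCast_K (A := A) (K := K) hN
  obtain ⟨x, hx⟩ := rigidity_level (A := A) (K := K) (k := k) (N := M) ι hk hMk h49 hA hrank hm
    (f := incl K hNM f) hf (γ := incl k hNM γ) (by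
      intro h0
      apply hγ
      apply incl_injective hNM
      rw [h0]
      exact ((incl k hNM).toRingHom.map_zero).symm) hfγ
    (dvd_ord_incl hMK hNM hNK hD)
  exact descent_level hp hM hm0 hNM hx hD

end

end Fermat.Agent.RedMod
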