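import Fermat.Prelude.Def_ModularCurve_ReductionModL
import Fermat.Agent.RedMod.Rigidity
import Fermat.Agent.RedMod.Qbar

/-!
# Rigidity for the modular function field over `ℚ̄`
-/

set_option autoImplicit false
set_option linter.style.haveILetI false
set_option linter.unusedSectionVars false
set_option synthInstance.maxHeartbeats 400000

noncomputable section

namespace Fermat.Agent.RedMod

open ModularCurve IntermediateField Fermat.Agent.ModPoly Fermat.Agent.Red AlgebraicCurve
open Fermat.Agent.RR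

section Generic

variable {A K k : Type*} [CommRing A] [IsDomain A] [ValuationRing A]
  [Field K] [IsAlgClosed K] [Algebra A K] [IsFractionRing A K] [Field k] [IsAlgClosed k]
  [Algebra A k] {N : ℕ} [NeZero N]

theorem rigidity_E [CharZero K] [Algebra ℚ K] (ι : K →+* ℂ)
    (hk : Function.Surjective (algebraMap A k)) (hN : (N : k) ≠ 0)
    (hA : ∃ t : A, t ≠ 0 ∧ ¬ IsUnit t)
    (hrank : ∀ a c : A, algebraMap A k a = 0 → c ≠ 0 → ∃ n : ℕ, c ∣ a ^ n)
    {m : ℕ} (hm : (m : k) ≠ 0) {E : IntermediateField K (LaurentSeries K)}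
    (hE : E = modularFunctionFieldFullC K N) {f : E} {P Q : LaurentSeries A}
    (hfPQ : (f : LaurentSeries K) * incL A K Q = incL A K P)
    (hP : redL A k P ≠ 0) (hQ : redL A k Q ≠ 0) {γ : LaurentSeries k}
    (hγ : γ ∈ modularFunctionFieldFullC k N)
    (h : redL A k P = γ ^ m * redL A k Q)
    (hD : ∀ v : Place K E, (m : ℤ) ∣ v.ord f) : ∃ x : E, x ^ m = f := by
  subst hE
  have hf : (f : LaurentSeries K) ∈ WL A K k := ⟨P, Q, hQ, by rw [mul_comm]; exact hfPQ⟩
  have hm0 : m ≠ 0 := by rintro rfl; simp at hm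
  have hγ0 : γ ≠ 0 := by
    rintro rfl
    rw [zero_pow hm0, zero_mul] at h
    exact hP h
  refine rigidity_modular' (A := A) (k := k) ι hk hN hA hrank hm hf (γ := ⟨γ, hγ⟩)
    (fun h0 => hγ0 (congrArg Subtype.val h0)) ?_ hD
  rw [πL_eq (A := A) (K := K) (k := k) ⟨(f : LaurentSeries K), hf⟩ (u := P) (v := Q) hQ
    (by rw [mul_comm]; exact hfPQ), h]
  field_simp

end Generic

section Qbar

variable {A : ValuationSubring (AlgebraicClosure ℚ)} {ℓ : ℕ} [Fact ℓ.Prime]

/-- an embedding of `ℚ̄` in `ℂ` -/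
theorem exists_ιC : Nonempty (AlgebraicClosure ℚ →+* ℂ) :=
  letI : Algebra ℚ (AlgebraicClosure ℚ) := AlgebraicClosure.instAlgebra ℚ
  haveI : Algebra.IsAlgebraic ℚ (AlgebraicClosure ℚ) := AlgebraicClosure.isAlgebraic ℚ
  ⟨(IsAlgClosed.lift (R := ℚ) (S := AlgebraicClosure ℚ) (M := ℂ)).toRingHom⟩

/-- **Rigidity for the modular function field over `ℚ̄`.** -/
theorem rigidity_modular (hA : A.LiesOverPrime ℓ) {N : ℕ} [NeZero N] (hN : ¬ ℓ ∣ N)
    {m : ℕ} (hm : ¬ ℓ ∣ m) {f : modularFunctionFieldBar N} {P Q : LaurentSeries A}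
    (hfPQ : (f : LaurentSeries (AlgebraicClosure ℚ)) * coeffMap A.subtype Q = coeffMap A.subtype P)
    (hP : coeffMap (IsLocalRing.residue A) P ≠ 0) (hQ : coeffMap (IsLocalRing.residue A) Q ≠ 0)
    {γ : LaurentSeries (IsLocalRing.ResidueField A)}
    (hγ : γ ∈ modularFunctionFieldFullC (IsLocalRing.ResidueField A) N)
    (h : coeffMap (IsLocalRing.residue A) P = γ ^ m * coeffMap (IsLocalRing.residue A) Q)
    (hD : ∀ v : Place (AlgebraicClosure ℚ) (modularFunctionFieldBar N), (m : ℤ) ∣ v.ord f) :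
    ∃ x : modularFunctionFieldBar N, x ^ m = f :=
  rigidity_E (A := A) (K := AlgebraicClosure ℚ) (k := IsLocalRing.ResidueField A) (N := N) exists_ιC.some
    IsLocalRing.residue_surjective (natCast_residue_ne_zero hA hN) (exists_nonunit hA)
    (fun a c ha hc => rank_one hA a c ha hc) (natCast_residue_ne_zero hA hm)
    (X0Genus.baseChange_eq (AlgebraicClosure ℚ) N) hfPQ hP hQ hγ h hD

end Qbar

end Fermat.Agent.RedMod
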