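import Fermat.Agent.RedMod.Good
import Fermat.Agent.Cusp.Cusps
import Fermat.Agent.RR.LevelH
import Fermat.Agent.RR.ModularGenus

/-!
# Comparison of the genera of the modular function fields in characteristic `0` and `ℓ`
-/

set_option autoImplicit false
set_option linter.style.haveILetI false
set_option linter.unusedSectionVars false

noncomputable section

namespace Fermat.Agent.RedMod

open ModularCurve Polynomial IntermediateField Fermat.Agent.ModPoly Fermat.Agent.Red AlgebraicCurve
open Fermat.Agent.RR

theorem poleZero {K F : Type*} [Field K] [IsAlgClosed K] [Field F] [Algebra K F] [FunField K F]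
    {t : F} (ht : Transcendental K t) (hpos : 0 < Module.finrank K⟮t⟯ F) :
    PoleZero t (poleDiv K t) (zeroDiv K t) (Module.finrank K⟮t⟯ F) where
  hP v := poleDiv_apply t v
  hZ v := zeroDiv_apply t v
  dP := degree_poleDiv ht
  dZ := degree_zeroDiv ht
  pos := hpos

section

variable {A K k : Type*} [CommRing A] [IsDomain A] [ValuationRing A]
  [Field K] [IsAlgClosed K] [Algebra A K] [IsFractionRing A K] [Field k] [IsAlgClosed k]
  [Algebra A k] {N : ℕ} [NeZero N]
  [Algebra A (FF K N)] [IsScalarTower A K (FF K N)]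
  [Algebra A (FF k N)] [IsScalarTower A k (FF k N)]
  (hk : Function.Surjective (algebraMap A k)) (hN : (N : k) ≠ 0)

theorem psi_pos (N : ℕ) [NeZero N] : 0 < dedekindPsi N := by
  rw [← Cosets.index_Gamma0]
  exact Nat.pos_of_ne_zero Subgroup.FiniteIndex.index_ne_zero

theorem poleZero_jF [FunField k (FF k N)] (hN : (N : k) ≠ 0) :
    PoleZero (jF' k N) (poleDiv k (jF' k N)) (zeroDiv k (jF' k N)) (dedekindPsi N) := by
  have h := poleZero (K := k) (t := jF' k N) (RR.transcendental_jF N)
    (by rw [finrank_E hN]; exact psi_pos N)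
  rwa [finrank_E hN] at h

/-- The hypotheses of the reduction theory for the modular function field. -/
theorem fibreHyp [FunField k (FF k N)] [FunField K (FF K N)] :
    FibreHyp (gaussFF K hk hN) (poleDiv K (jF' K N)) (zeroDiv K (jF' K N))
      (poleDiv k (jF' k N)) (zeroDiv k (jF' k N)) (dedekindPsi N)
      (rrGenus K (FF K N)) (rrGenus k (FF k N)) where
  hk := hk
  hspan := gaussFF_span hk hN
  tr := RR.transcendental_jF N
  trk := by rw [gaussFF_πt]; exact RR.transcendental_jF N
  fin := finiteDimensional_E (natCast_K (A := A) hN)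
  sep := isSeparable_E (natCast_K (A := A) hN)
  fink := by rw [gaussFF_πt]; exact finiteDimensional_E hN
  sepk := by rw [gaussFF_πt]; exact isSeparable_E hN
  pz := poleZero_jF (natCast_K (A := A) hN)
  pzk := by rw [gaussFF_πt]; exact poleZero_jF hN
  rr := riemannAt K (FF K N)
  rrk := riemannAt k (FF k N)

end

section

variable {A K k : Type*} [CommRing A] [IsDomain A] [ValuationRing A]
  [Field K] [IsAlgClosed K] [Algebra A K] [IsFractionRing A K] [Field k] [IsAlgClosed k]
  [Algebra A k] {N : ℕ} [NeZero N]

/-- the genus does not increase under reduction -/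
theorem rrGenus_le (hk : Function.Surjective (algebraMap A k)) (hN : (N : k) ≠ 0)
    [FunField k (FF k N)] [FunField K (FF K N)] : rrGenus k (FF k N) ≤ rrGenus K (FF K N) := by
  letI : Algebra A (FF K N) := ((algebraMap K (FF K N)).comp (algebraMap A K)).toAlgebra
  haveI : IsScalarTower A K (FF K N) := IsScalarTower.of_algebraMap_eq fun a => rfl
  letI : Algebra A (FF k N) := ((algebraMap k (FF k N)).comp (algebraMap A k)).toAlgebra
  haveI : IsScalarTower A k (FF k N) := IsScalarTower.of_algebraMap_eq fun a => rfl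
  have h := (fibreHyp (K := K) hk hN).genus_le
  exact_mod_cast h

theorem rrGenus_congr {E E' : IntermediateField K (LaurentSeries K)} (h : E = E')
    [FunField K E] [FunField K E'] : rrGenus K E = rrGenus K E' := by
  subst h
  rfl

theorem rrGenus_K [CharZero K] [Algebra ℚ K] (ι : K →+* ℂ) [FunField K (FF K N)] :
    (rrGenus K (FF K N) : ℚ) = genusFormula N := by
  rw [← rrGenus_modular N ι, rrGenus_congr (X0Genus.baseChange_eq K N)]

include A in
/-- **Equality of genera** at level `4 ∣ N` or `9 ∣ N`. -/
theorem rrGenus_eq [CharZero K] [Algebra ℚ K] (ι : K →+* ℂ)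
    (hk : Function.Surjective (algebraMap A k)) (hN : (N : k) ≠ 0)
    (h : 4 ∣ N ∨ 9 ∣ N) [FunField k (FF k N)] [FunField K (FF K N)] :
    rrGenus k (FF k N) = rrGenus K (FF K N) := by
  apply le_antisymm (rrGenus_le hk hN)
  have h1 : ∀ (L : ℕ) [NeZero L], L ∣ N → genusFormula L = 0 →
      (∃ _ : FunField k (FF k L), rrGenus k (FF k L) = 0) ∧
        cuspCount L ≤ Set.ncard {v : Place k (FF k L) | v.ord (jF' k L) < 0} := by
    intro L _ hL hg
    have hLk : (L : k) ≠ 0 := RR.natCast_ne_zero_of_dvd hL hN
    haveI := funField_FF (k := k) (M := L) hLk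
    haveI := funField_FF (k := K) (M := L) (natCast_K (A := A) hLk)
    refine ⟨⟨inferInstance, ?_⟩, (Cusp.card_cusps hLk).ge⟩
    have h2 := rrGenus_le (A := A) (K := K) (k := k) (N := L) hk hLk
    have h3 := rrGenus_K (K := K) (N := L) ι
    rw [hg] at h3
    have h4 : rrGenus K (FF K L) = 0 := by exact_mod_cast h3
    omega
  have h2 : genusFormula N ≤ rrGenus k (FF k N) := by
    apply genusFormula_le_of hN (Cusp.card_cusps hN).le
    rcases h with h | h
    · haveI : NeZero 4 := ⟨by norm_num⟩
      obtain ⟨h3, h4⟩ := h1 4 h genusFormula_four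
      exact Or.inl ⟨h, h3, h4⟩
    · haveI : NeZero 9 := ⟨by norm_num⟩
      obtain ⟨h3, h4⟩ := h1 9 h genusFormula_nine
      exact Or.inr ⟨h, h3, h4⟩
  rw [← rrGenus_K (K := K) (N := N) ι] at h2
  exact_mod_cast h2

end

end Fermat.Agent.RedMod
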