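import Fermat.Agent.ModPoly.Monomials
import Fermat.Agent.Red.Span

/-!
# The Gauss ring of Laurent series over a valuation ring
-/

set_option autoImplicit false
set_option linter.style.haveILetI false
set_option linter.unusedSectionVars false

noncomputable section

namespace Fermat.Agent.RedMod

open ModularCurve Polynomial IntermediateField Fermat.Agent.ModPoly

section Basic

variable (A K k : Type*) [CommRing A] [IsDomain A]
  [Field K] [Algebra A K] [IsFractionRing A K] [Field k] [Algebra A k]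

/-- inclusion of Laurent series -/
abbrev incL : LaurentSeries A →+* LaurentSeries K := coeffMap (algebraMap A K)

/-- reduction of Laurent series -/
abbrev redL : LaurentSeries A →+* LaurentSeries k := coeffMap (algebraMap A k)

theorem incL_injective : Function.Injective (incL A K) :=
  coeffMap_injective (IsFractionRing.injective A K)

/-- the Gauss ring: series with a denominator whose reduction is nonzero -/
def WL : Subring (LaurentSeries K) where
  carrier := {x | ∃ u v : LaurentSeries A, redL A k v ≠ 0 ∧ incL A K v * x = incL A K u}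
  mul_mem' := by
    rintro x y ⟨u, v, hv, h⟩ ⟨u', v', hv', h'⟩
    refine ⟨u * u', v * v', ?_, ?_⟩
    · rw [map_mul]; exact mul_ne_zero hv hv'
    · rw [map_mul, map_mul, ← h, ← h']; ring
  one_mem' := ⟨1, 1, by rw [map_one]; exact one_ne_zero, by simp⟩
  add_mem' := by
    rintro x y ⟨u, v, hv, h⟩ ⟨u', v', hv', h'⟩
    refine ⟨u * v' + v * u', v * v', ?_, ?_⟩
    · rw [map_mul]; exact mul_ne_zero hv hv'
    · rw [map_mul, map_add, map_mul, map_mul, ← h, ← h']; ring
  zero_mem' := ⟨0, 1, by rw [map_one]; exact one_ne_zero, by simp⟩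
  neg_mem' := by
    rintro x ⟨u, v, hv, h⟩
    refine ⟨-u, v, hv, ?_⟩
    rw [map_neg, ← h]; ring

variable {A K k}

theorem mem_WL {x : LaurentSeries K} : x ∈ WL A K k ↔
    ∃ u v : LaurentSeries A, redL A k v ≠ 0 ∧ incL A K v * x = incL A K u := Iff.rfl

theorem red_eq_of {x : LaurentSeries K} {u v u' v' : LaurentSeries A} (hv : redL A k v ≠ 0)
    (h : incL A K v * x = incL A K u) (hv' : redL A k v' ≠ 0)
    (h' : incL A K v' * x = incL A K u') : redL A k u / redL A k v = redL A k u' / redL A k v' := by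
  rw [div_eq_div_iff hv hv', ← map_mul, ← map_mul]
  congr 1
  apply incL_injective A K
  rw [map_mul, map_mul, ← h, ← h']
  ring

variable (A K k) in
/-- the reduction of elements of the Gauss ring -/
def πfun (x : WL A K k) : LaurentSeries k :=
  redL A k x.2.choose / redL A k x.2.choose_spec.choose

theorem πfun_eq (x : WL A K k) {u v : LaurentSeries A}
    (hv : redL A k v ≠ 0) (h : incL A K v * x = incL A K u) :
    πfun A K k x = redL A k u / redL A k v :=
  red_eq_of (mem_WL.1 x.2).choose_spec.choose_spec.1 (mem_WL.1 x.2).choose_spec.choose_spec.2 hv h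

theorem redL_one_ne : redL A k 1 ≠ 0 := by rw [map_one]; exact one_ne_zero

variable (A K k) in
/-- the reduction map of the Gauss ring -/
def πL : WL A K k →+* LaurentSeries k where
  toFun := πfun A K k
  map_one' := by
    rw [πfun_eq 1 (u := 1) (v := 1) redL_one_ne (by simp), map_one, div_one]
  map_zero' := by
    rw [πfun_eq 0 (u := 0) (v := 1) redL_one_ne (by simp), map_zero, zero_div]
  map_mul' := by
    intro x y
    obtain ⟨u, v, hv, h⟩ := mem_WL.1 x.2
    obtain ⟨u', v', hv', h'⟩ := mem_WL.1 y.2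
    rw [πfun_eq x hv h, πfun_eq y hv' h', πfun_eq (x * y) (u := u * u') (v := v * v')]
    · rw [map_mul, map_mul, div_mul_div_comm]
    · rw [map_mul]; exact mul_ne_zero hv hv'
    · rw [map_mul, map_mul, ← h, ← h', MulMemClass.coe_mul]; ring
  map_add' := by
    intro x y
    obtain ⟨u, v, hv, h⟩ := mem_WL.1 x.2
    obtain ⟨u', v', hv', h'⟩ := mem_WL.1 y.2
    rw [πfun_eq x hv h, πfun_eq y hv' h', πfun_eq (x + y) (u := u * v' + v * u') (v := v * v')]
    · rw [map_mul, map_add, map_mul, map_mul, div_add_div _ _ hv hv']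
    · rw [map_mul]; exact mul_ne_zero hv hv'
    · rw [map_mul, map_add, map_mul, map_mul, ← h, ← h', AddMemClass.coe_add]; ring

theorem πL_eq (x : WL A K k) {u v : LaurentSeries A}
    (hv : redL A k v ≠ 0) (h : incL A K v * x = incL A K u) :
    πL A K k x = redL A k u / redL A k v := πfun_eq x hv h

theorem incL_mem (u : LaurentSeries A) : incL A K u ∈ WL A K k :=
  ⟨u, 1, redL_one_ne, by rw [map_one, one_mul]⟩

theorem πL_incL (u : LaurentSeries A) (h : incL A K u ∈ WL A K k) :
    πL A K k ⟨incL A K u, h⟩ = redL A k u := by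
  rw [πL_eq _ (u := u) (v := 1) redL_one_ne (by rw [map_one, one_mul]), map_one, div_one]

theorem πL_of_eq {x : LaurentSeries K} {u : LaurentSeries A} (h : x = incL A K u)
    (hx : x ∈ WL A K k) : πL A K k ⟨x, hx⟩ = redL A k u := by
  subst h
  exact πL_incL u hx

/-- elements with nonzero reduction are invertible -/
theorem inv_mem_WL {x : LaurentSeries K} (hx : x ∈ WL A K k) (h : πL A K k ⟨x, hx⟩ ≠ 0) :
    x⁻¹ ∈ WL A K k := by
  obtain ⟨u, v, hv, h1⟩ := mem_WL.1 hx
  have h2 : redL A k u ≠ 0 := by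
    intro h0
    apply h
    rw [πL_eq ⟨x, hx⟩ hv h1, h0, zero_div]
  refine ⟨v, u, h2, ?_⟩
  have hx0 : x ≠ 0 := by
    rintro rfl
    apply h
    have : (⟨0, hx⟩ : WL A K k) = 0 := rfl
    rw [this, map_zero]
  rw [← h1, mul_assoc, mul_inv_cancel₀ hx0, mul_one]

theorem const_mem_WL (a : A) : HahnSeries.C (algebraMap A K a) ∈ WL A K k := by
  rw [← coeffMap_C]
  exact incL_mem _

theorem πL_const (a : A) (h : HahnSeries.C (algebraMap A K a) ∈ WL A K k) :
    πL A K k ⟨HahnSeries.C (algebraMap A K a), h⟩ = HahnSeries.C (algebraMap A k a) := by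
  rw [πL_of_eq (coeffMap_C (algebraMap A K) a).symm, coeffMap_C]

end Basic

section Emb

variable {A K k : Type*} [CommRing A] [IsDomain A]
  [Field K] [Algebra A K] [IsFractionRing A K] [Field k] [Algebra A k]

variable {F : Type*} [Field F] [Algebra K F] [Algebra A F] [IsScalarTower A K F]
  (φ : F →ₐ[K] LaurentSeries K)

theorem φ_algebraMap (a : A) : φ (algebraMap A F a) = HahnSeries.C (algebraMap A K a) := by
  rw [IsScalarTower.algebraMap_apply A K F, AlgHom.commutes, algebraMap_eq_C]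

variable (A k) in
/-- the Gauss ring of a field embedded in Laurent series -/
def Wφ : Subalgebra A F where
  __ := (WL A K k).comap φ.toRingHom
  algebraMap_mem' a := by
    change φ (algebraMap A F a) ∈ WL A K k
    rw [φ_algebraMap]
    exact const_mem_WL a

theorem mem_Wφ {x : F} : x ∈ Wφ A k φ ↔ φ x ∈ WL A K k := Iff.rfl

variable (A k) in
/-- the reduction on the Gauss ring of an embedded field, as a ring homomorphism -/
def πφ : Wφ A k φ →+* LaurentSeries k :=
  (πL A K k).comp ((φ.toRingHom.comp (Wφ A k φ).val.toRingHom).codRestrict (WL A K k)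
    (fun x => x.2))

theorem πφ_apply {x : F} (hx : x ∈ Wφ A k φ) : πφ A k φ ⟨x, hx⟩ = πL A K k ⟨φ x, hx⟩ := rfl

theorem πφ_apply' (x : Wφ A k φ) : πφ A k φ x = πL A K k ⟨φ x, x.2⟩ := rfl

theorem πφ_eq {x : F} (hx : x ∈ Wφ A k φ) {u v : LaurentSeries A}
    (hv : redL A k v ≠ 0) (h : incL A K v * φ x = incL A K u) :
    πφ A k φ ⟨x, hx⟩ = redL A k u / redL A k v := πL_eq ⟨φ x, hx⟩ hv h

theorem mem_Wφ_of_eq {x : F} {u : LaurentSeries A} (h : φ x = incL A K u) : x ∈ Wφ A k φ := by
  rw [mem_Wφ, h]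
  exact incL_mem u

theorem πφ_of_eq {x : F} {u : LaurentSeries A} (h : φ x = incL A K u) (hx : x ∈ Wφ A k φ) :
    πφ A k φ ⟨x, hx⟩ = redL A k u := πL_of_eq h hx

theorem πφ_algebraMap (a : A) : πφ A k φ (algebraMap A (Wφ A k φ) a) =
    HahnSeries.C (algebraMap A k a) := by
  have h1 : φ (algebraMap A F a) = incL A K (HahnSeries.C a) := by
    rw [coeffMap_C]
    exact φ_algebraMap φ a
  exact (πφ_of_eq φ h1 (algebraMap A (Wφ A k φ) a).2).trans (coeffMap_C _ _)

theorem inv_mem_Wφ {x : F} (hx : x ∈ Wφ A k φ) (h : πφ A k φ ⟨x, hx⟩ ≠ 0) :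
    x⁻¹ ∈ Wφ A k φ := by
  rw [mem_Wφ, map_inv₀]
  exact inv_mem_WL hx h

theorem ne_zero_of_πφ {x : Wφ A k φ} (h : πφ A k φ x ≠ 0) : (x : F) ≠ 0 := by
  intro h0
  apply h
  have : x = 0 := Subtype.ext h0
  rw [this, map_zero]

theorem isUnit_of_πφ (x : Wφ A k φ) (h : πφ A k φ x ≠ 0) : IsUnit x := by
  have hx0 := ne_zero_of_πφ φ h
  refine ⟨⟨x, ⟨(x : F)⁻¹, inv_mem_Wφ φ x.2 h⟩, ?_, ?_⟩, rfl⟩
  · exact Subtype.ext (mul_inv_cancel₀ hx0)
  · exact Subtype.ext (inv_mul_cancel₀ hx0)

end Emb

end Fermat.Agent.RedMod
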