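import Fermat.Agent.RedMod.Basic

/-!
# Gauss data for modular function fields: good reduction
-/

set_option autoImplicit false
set_option linter.style.haveILetI false
set_option linter.unusedSectionVars false

noncomputable section

namespace Fermat.Agent.RedMod

open ModularCurve Polynomial IntermediateField Fermat.Agent.ModPoly Fermat.Agent.Red

section Good

variable {A K k : Type*} [CommRing A] [IsDomain A] [ValuationRing A]
  [Field K] [Algebra A K] [IsFractionRing A K] [Field k] [Algebra A k] {N : ℕ} [NeZero N]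

include A in
theorem natCast_K (hN : (N : k) ≠ 0) : (N : K) ≠ 0 := by
  intro h
  apply hN
  have h1 : ((N : A) : A) = 0 := by
    apply IsFractionRing.injective A K
    rw [map_natCast, map_zero, h]
  rw [← map_natCast (algebraMap A k), h1, map_zero]

/-- the chosen monomials -/
def monos (hN : (N : k) ≠ 0) : Fin (dedekindPsi N) → LaurentSeries ℤ := (exists_monomials hN).choose

theorem monos_mem (hN : (N : k) ≠ 0) (i : Fin (dedekindPsi N)) : monos hN i ∈ Mono N :=
  (exists_monomials hN).choose_spec.1 i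

theorem monos_indep (hN : (N : k) ≠ 0) (P : Fin (dedekindPsi N) → k[X])
    (h : ∑ i, evT (jqModC k) (P i) * cst k (monos hN i) = 0) (i) : P i = 0 :=
  (exists_monomials hN).choose_spec.2 P h i

instance nonempty_fin_psi : Nonempty (Fin (dedekindPsi N)) := by
  rw [← Fin.pos_iff_nonempty]
  rw [← Cosets.index_Gamma0]
  exact Nat.pos_of_ne_zero Subgroup.FiniteIndex.index_ne_zero

theorem val_jF : ((FF K N).val (jF' K N)) = incL A K (jqModC A) := by
  rw [coeffMap_jqModC]
  exact Jc_one_one

theorem val_mono {z : LaurentSeries ℤ} (hz : z ∈ Mono N) :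
    ((FF K N).val ⟨cst K z, cst_mem_FF hz⟩) = incL A K (cst A z) := by
  rw [coeffMap_cst]
  rfl

section Pre

variable [Algebra A (FF K N)] [IsScalarTower A K (FF K N)]
  [Algebra A (LaurentSeries k)]
  (hT : ∀ a : A, algebraMap A (LaurentSeries k) a = algebraMap k (LaurentSeries k) (algebraMap A k a))

variable (K) in
/-- Gauss data with values in Laurent series -/
def gauss0 (hN : (N : k) ≠ 0) :
    GaussData A K (FF K N) k (LaurentSeries k) (Fin (dedekindPsi N)) where
  W := Wφ A k (FF K N).val
  π :=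
    { πφ A k (FF K N).val with
      commutes' := by
        intro a
        rw [hT, algebraMap_eq_C]
        exact πφ_algebraMap (FF K N).val a }
  t := jF' K N
  ht := mem_Wφ_of_eq _ val_jF
  y i := ⟨cst K (monos hN i), cst_mem_FF (monos_mem hN i)⟩
  hy i := mem_Wφ_of_eq _ (val_mono (monos_mem hN i))
  isUnit_of x hx := isUnit_of_πφ (FF K N).val x hx.ne_zero
  indep P hP := by
    rw [finsum_eq_sum_of_fintype] at hP
    funext i
    refine monos_indep hN P ?_ i
    rw [← hP]
    refine Finset.sum_congr rfl fun i _ => ?_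
    rw [evT_eq_aeval]
    congr 1
    · congr 2
      exact ((πφ_of_eq (FF K N).val val_jF _).trans (coeffMap_jqModC _)).symm
    · exact ((πφ_of_eq (FF K N).val (val_mono (monos_mem hN i)) _).trans (coeffMap_cst _ _)).symm
  isUnit_t q hq := by
    refine IsUnit.mk0 _ fun h0 => hq ?_
    apply aeval_jqModC_injective
    rw [map_zero, ← h0]
    congr 2
    exact ((πφ_of_eq (FF K N).val val_jF _).trans (coeffMap_jqModC _)).symm

theorem gauss0_π (hN : (N : k) ≠ 0) (x : FF K N) (hx : x ∈ Wφ A k (FF K N).val) :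
    (gauss0 K hT hN).π ⟨x, hx⟩ = πφ A k (FF K N).val ⟨x, hx⟩ := rfl

theorem gauss0_πt (hN : (N : k) ≠ 0) :
    (gauss0 K hT hN).π ⟨(gauss0 K hT hN).t, (gauss0 K hT hN).ht⟩ = jqModC k :=
  (πφ_of_eq (FF K N).val val_jF _).trans (coeffMap_jqModC _)

theorem gauss0_πy (hN : (N : k) ≠ 0) (i : Fin (dedekindPsi N)) :
    (gauss0 K hT hN).π ⟨(gauss0 K hT hN).y i, (gauss0 K hT hN).hy i⟩ = cst k (monos hN i) :=
  (πφ_of_eq (FF K N).val (val_mono (monos_mem hN i)) _).trans (coeffMap_cst _ _)

theorem gauss0_span (hN : (N : k) ≠ 0) (x : FF K N) : ∃ q : K[X], q ≠ 0 ∧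
    ∃ P : Fin (dedekindPsi N) → K[X],
      aeval (gauss0 K hT hN).t q * x = (gauss0 K hT hN).comb P := by
  haveI := IsScalarTower.of_algebraMap_eq hT
  haveI : FiniteDimensional K⟮(gauss0 K hT hN).t⟯ (FF K N) :=
    finiteDimensional_E' (natCast_K (A := A) hN)
  apply GaussData.hspan_of_finrank
  rw [Fintype.card_fin]
  exact finrank_E' (natCast_K (A := A) hN)

end Pre

/-- the reduction of an element of the modular function field lies in the modular function field -/
theorem πφ_mem (hk : Function.Surjective (algebraMap A k)) (hN : (N : k) ≠ 0)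
    (x : FF K N) {h : (x : LaurentSeries K) ∈ WL A K k} :
    πL A K k ⟨x, h⟩ ∈ FF k N := by
  letI : Algebra A (LaurentSeries k) :=
    ((algebraMap k (LaurentSeries k)).comp (algebraMap A k)).toAlgebra
  letI : Algebra A (FF K N) := ((algebraMap K (FF K N)).comp (algebraMap A K)).toAlgebra
  haveI : IsScalarTower A K (FF K N) := IsScalarTower.of_algebraMap_eq fun a => rfl
  have hT : ∀ a : A, algebraMap A (LaurentSeries k) a =
    algebraMap k (LaurentSeries k) (algebraMap A k a) := fun a => rfl
  haveI := IsScalarTower.of_algebraMap_eq hT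
  refine (gauss0 K hT hN).π_mem (FF k N) ?_ ?_ hk (gauss0_span hT hN) ⟨x, h⟩
  · rw [gauss0_πt]
    exact (Jc_one_one (k := k)) ▸ Jc_one_mem (one_dvd N)
  · intro i
    rw [gauss0_πy]
    exact cst_mem_FF (monos_mem hN i)

section Final

variable [Algebra A (FF K N)] [IsScalarTower A K (FF K N)]
  [Algebra A (FF k N)] [IsScalarTower A k (FF k N)]
  (hk : Function.Surjective (algebraMap A k)) (hN : (N : k) ≠ 0)

variable (K) in
/-- the reduction map of the modular function field -/
def redFF : Wφ A k (FF K N).val →ₐ[A] FF k N where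
  toFun x := ⟨πφ A k (FF K N).val x, πφ_mem hk hN x.1⟩
  map_one' := Subtype.ext (map_one _)
  map_zero' := Subtype.ext (map_zero _)
  map_mul' x y := Subtype.ext (map_mul _ x y)
  map_add' x y := Subtype.ext (map_add _ x y)
  commutes' a := by
    apply Subtype.ext
    rw [IsScalarTower.algebraMap_apply A k (FF k N)]
    change πφ A k (FF K N).val (algebraMap A _ a) = algebraMap k (LaurentSeries k) (algebraMap A k a)
    rw [algebraMap_eq_C]
    exact πφ_algebraMap (FF K N).val a

theorem coe_redFF (x : Wφ A k (FF K N).val) :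
    (redFF K hk hN x : LaurentSeries k) = πφ A k (FF K N).val x := rfl

theorem redFF_jF (h : jF' K N ∈ Wφ A k (FF K N).val) :
    redFF K hk hN ⟨jF' K N, h⟩ = jF' k N := by
  apply Subtype.ext
  rw [coe_redFF, πφ_of_eq (FF K N).val val_jF h, coeffMap_jqModC]
  exact Jc_one_one.symm

theorem redFF_mono {z : LaurentSeries ℤ} (hz : z ∈ Mono N)
    (h : (⟨cst K z, cst_mem_FF hz⟩ : FF K N) ∈ Wφ A k (FF K N).val) :
    redFF K hk hN ⟨⟨cst K z, cst_mem_FF hz⟩, h⟩ = ⟨cst k z, cst_mem_FF hz⟩ := by
  apply Subtype.ext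
  rw [coe_redFF, πφ_of_eq (FF K N).val (val_mono hz) h]
  exact coeffMap_cst _ _

variable (K) in
/-- **Gauss data for the modular function field** at a place of good reduction -/
def gaussFF : GaussData A K (FF K N) k (FF k N) (Fin (dedekindPsi N)) where
  W := Wφ A k (FF K N).val
  π := redFF K hk hN
  t := jF' K N
  ht := mem_Wφ_of_eq _ val_jF
  y i := ⟨cst K (monos hN i), cst_mem_FF (monos_mem hN i)⟩
  hy i := mem_Wφ_of_eq _ (val_mono (monos_mem hN i))
  isUnit_of x hx := isUnit_of_πφ (FF K N).val x fun h0 => hx.ne_zero (Subtype.ext h0)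
  indep P hP := by
    rw [finsum_eq_sum_of_fintype] at hP
    funext i
    refine monos_indep hN P ?_ i
    have h1 := congrArg (FF k N).val hP
    rw [map_sum, map_zero] at h1
    rw [← h1]
    refine Finset.sum_congr rfl fun i _ => ?_
    rw [redFF_mono hk hN (monos_mem hN i), redFF_jF, map_mul, ← coe_aeval_jF (N := N)]
    rfl
  isUnit_t q hq := by
    rw [redFF_jF]
    refine IsUnit.mk0 _ fun h0 => hq ?_
    apply aeval_jF_injective (N := N)
    rw [map_zero, h0]

theorem gaussFF_W : (gaussFF K hk hN).W = Wφ A k (FF K N).val := rfl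

theorem gaussFF_t : (gaussFF K hk hN).t = jF' K N := rfl

theorem gaussFF_πt : (gaussFF K hk hN).π ⟨(gaussFF K hk hN).t, (gaussFF K hk hN).ht⟩ = jF' k N :=
  redFF_jF hk hN _

theorem gaussFF_π (x : Wφ A k (FF K N).val) :
    ((gaussFF K hk hN).π x : LaurentSeries k) = πφ A k (FF K N).val x := rfl

theorem gaussFF_span (x : FF K N) : ∃ q : K[X], q ≠ 0 ∧
    ∃ P : Fin (dedekindPsi N) → K[X],
      aeval (gaussFF K hk hN).t q * x = (gaussFF K hk hN).comb P := by
  haveI : FiniteDimensional K⟮(gaussFF K hk hN).t⟯ (FF K N) :=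
    finiteDimensional_E' (natCast_K (A := A) hN)
  apply GaussData.hspan_of_finrank
  rw [Fintype.card_fin]
  exact finrank_E' (natCast_K (A := A) hN)

end Final

end Good

end Fermat.Agent.RedMod
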